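/-
Project FF (S19), cell [INST], leaf [P-Dκ] (helper21), part 3 (ABSTRACT): an integrally closed
domain `B` with an injective map `ι : B → F` into a function field `F / k`, integral over `k[x]`,
containing `x`, with fraction field `F`, IS the chart of `x`.  Prefix `ffi_dkap_`.

* `ffi_dkap_chart_of_closed`  : the chart characterisation of the range of `ι`;
* `ffi_dkap_not_isField`      : `B` is not a field;
* `ffi_dkap_frac_of_gens`     : every element of `F̃_N` is a quotient of elements of a subalgebra
                                whose fraction field contains the generators `j̃(q^d)`.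
-/
import Mathlib
import Fermat.Agent.JT3.Riemann.Approx
import Fermat.Agent.JT3.PlaceMap.RedRange
import Fermat.Agent.JT3.PlaceMap.Level0Gen

set_option autoImplicit false
set_option linter.style.haveILetI false
set_option linter.unusedSectionVars false

noncomputable section

namespace Fermat.Agent.FF

open ModularCurve AlgebraicCurve Fermat.Agent.JT3 Fermat.Agent.S24

section Abstract

variable {k : Type*} {F : Type*} [Field k] [Field F] [Algebra k F]
  {B : Type*} [CommRing B] [Algebra k B]

/-- **the chart characterisation**: an integrally closed domain `B ↪ F`, integral over `k[x]`,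
containing `x`, with fraction field `F`, is the ring of functions regular wherever `x` is. -/
theorem ffi_dkap_chart_of_closed [IsDomain B] [IsIntegrallyClosed B] {x : F}
    (hx : rt_IsSepGen k x) (ι : B →ₐ[k] F) (hinj : Function.Injective ι)
    (hxB : ∃ b : B, ι b = x)
    (hint : ∀ b : B, IsIntegral (Algebra.adjoin k ({x} : Set F)) (ι b))
    (hfrac : ∀ f : F, ∃ b c : B, ι c ≠ 0 ∧ f * ι c = ι b) (f : F) :
    f ∈ ι.range ↔
      ∀ v : Place k F, x ∈ v.toValuationSubring → f ∈ v.toValuationSubring := by
  constructor
  · rintro ⟨b, rfl⟩ v hv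
    exact hw_coe_mem_of_mem_integralClosure x v hv ⟨ι b, hint b⟩
  · intro h
    have hf : IsIntegral (Algebra.adjoin k ({x} : Set F)) f := rt_isIntegral_of_forall_mem hx f h
    letI : Algebra B F := ι.toRingHom.toAlgebra
    have halg : ∀ b : B, algebraMap B F b = ι b := fun _ => rfl
    haveI : FaithfulSMul B F := (faithfulSMul_iff_algebraMap_injective B F).2 hinj
    haveI : IsFractionRing B F := by
      refine IsFractionRing.of_field B F (fun z => ?_)
      obtain ⟨b, c, hc, hbc⟩ := hfrac z
      refine ⟨b, c, ?_⟩
      rw [halg, halg, eq_div_iff hc]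
      exact hbc
    -- `k[x] → B`
    have hle : Algebra.adjoin k ({x} : Set F) ≤ ι.range := by
      refine Algebra.adjoin_le ?_
      intro y hy
      rw [Set.mem_singleton_iff] at hy
      obtain ⟨b, hb⟩ := hxB
      exact ⟨b, by rw [hy]; exact hb⟩
    let e : B ≃ₐ[k] ι.range := AlgEquiv.ofInjective ι hinj
    let φ : ↥(Algebra.adjoin k ({x} : Set F)) →+* B :=
      ((e.symm : ι.range →ₐ[k] B).comp (Subalgebra.inclusion hle)).toRingHom
    have hφ : (algebraMap B F).comp φ =
        (RingHom.id F).comp (algebraMap ↥(Algebra.adjoin k ({x} : Set F)) F) := by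
      ext r
      change ι (e.symm (Subalgebra.inclusion hle r)) = (r : F)
      have h1 : ((e (e.symm (Subalgebra.inclusion hle r)) : ι.range) : F) =
          ι (e.symm (Subalgebra.inclusion hle r)) := rfl
      rw [← h1, AlgEquiv.apply_symm_apply]
      rfl
    have hfB : IsIntegral B f := IsIntegral.map_of_comp_eq φ (RingHom.id F) hφ hf
    obtain ⟨y, hy⟩ := IsIntegrallyClosed.isIntegral_iff.1 hfB
    exact ⟨y, hy⟩

/-- `B` is not a field (when `x` is transcendental). -/
theorem ffi_dkap_not_isField {x : F} (hx : Transcendental k x) (ι : B →ₐ[k] F)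
    (hinj : Function.Injective ι) (hxB : ∃ b : B, ι b = x)
    (hint : ∀ b : B, IsIntegral (Algebra.adjoin k ({x} : Set F)) (ι b)) : ¬ IsField B := by
  intro hB
  have h1 : ¬ IsField ι.range.toSubring := by
    refine rpr_not_isField ι.range.toSubring (fun c => ι.range.algebraMap_mem c) x ?_ hx ?_
    · obtain ⟨b, hb⟩ := hxB
      exact ⟨b, hb⟩
    · rintro _ ⟨b, rfl⟩
      exact hint b
  apply h1
  let e : B ≃ₐ[k] ι.range := AlgEquiv.ofInjective ι hinj
  exact e.symm.toMulEquiv.isField hB

end Abstract

section Gens

variable (κ : Type*) [Field κ] (N : ℕ) [NeZero N]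

/-- generators of an adjoined field, seen inside it, generate it. -/
theorem ffi_dkap_adjoin_preimage_eq_top {k E : Type*} [Field k] [Field E] [Algebra k E]
    (S : Set E) :
    IntermediateField.adjoin k
      (((↑) : ↥(IntermediateField.adjoin k S) → E) ⁻¹' S) = ⊤ := by
  rw [eq_top_iff]
  rintro ⟨f, hf⟩ -
  induction hf using IntermediateField.adjoin_induction with
  | mem x hx => exact IntermediateField.subset_adjoin _ _ hx
  | algebraMap r => exact IntermediateField.algebraMap_mem _ r
  | add x y hx' hy' hx hy => exact add_mem hx hy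
  | inv x hx' hx => exact inv_mem hx
  | mul x y hx' hy' hx hy => exact mul_mem hx hy

/-- every element of `F̃_N` is a quotient of elements of a `κ`-subalgebra `D` whose fraction field
contains the generators `j̃(q^d)`, `d ∣ N`. -/
theorem ffi_dkap_frac_of_gens (D : Subalgebra κ ↥(modularFunctionFieldFullC κ N))
    (hgen : ∀ (d : ℕ) [NeZero d] (hd : d ∣ N), rpn_gen_jd κ N hd ∈
      Subfield.closure (D : Set ↥(modularFunctionFieldFullC κ N)))
    (f : ↥(modularFunctionFieldFullC κ N)) :
    ∃ b ∈ D, ∃ c ∈ D, c ≠ 0 ∧ f * c = b := by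
  let T : IntermediateField κ ↥(modularFunctionFieldFullC κ N) :=
    (Subfield.closure (D : Set ↥(modularFunctionFieldFullC κ N))).toIntermediateField
      (fun c => Subfield.subset_closure (D.algebraMap_mem c))
  have hG : IntermediateField.adjoin κ
      (((↑) : ↥(modularFunctionFieldFullC κ N) → LaurentSeries κ) ⁻¹'
        divisorExpansionsC κ N) = ⊤ :=
    ffi_dkap_adjoin_preimage_eq_top (divisorExpansionsC κ N)
  have hle : (⊤ : IntermediateField κ ↥(modularFunctionFieldFullC κ N)) ≤ T := by
    rw [← hG, IntermediateField.adjoin_le_iff]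
    rintro y ⟨d, hd, hdN, hy⟩
    haveI := hd
    have : y = rpn_gen_jd κ N hdN := Subtype.ext hy
    rw [this]
    exact hgen d hdN
  have hf : f ∈ Subfield.closure (D : Set ↥(modularFunctionFieldFullC κ N)) :=
    hle (IntermediateField.mem_top (x := f))
  have hcl : Subring.closure (D : Set ↥(modularFunctionFieldFullC κ N)) = D.toSubring :=
    Subring.closure_eq D.toSubring
  rw [Subfield.mem_closure_iff, hcl] at hf
  obtain ⟨y, hy, z, hz, hyz⟩ := hf
  by_cases hz0 : z = 0
  · refine ⟨0, D.zero_mem, 1, D.one_mem, one_ne_zero, ?_⟩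
    rw [← hyz, hz0, div_zero, zero_mul]
  · refine ⟨y, hy, z, hz, hz0, ?_⟩
    rw [← hyz, div_mul_cancel₀ _ hz0]

end Gens

end Fermat.Agent.FF
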