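/-
Project FF (S19), cell [INST], leaf [P-Dκ] (helper21), part 1: the special fibre `κ ⊗[O] M` when
`O → κ` is onto with kernel `(π)` (ABSTRACT, Mathlib only).  Prefix `ffi_dkap_`.

* `ffi_dkap_tmul_surj`      : every element of `κ ⊗ M` is `1 ⊗ x`;
* `ffi_dkap_tmul_eq_zero`   : `1 ⊗ x = 0 ↔ x ∈ π M`;
* `ffi_dkap_baseChange_inj` : `κ ⊗ M' → κ ⊗ M` is injective for a `π`-saturated submodule `M'`;
* `ffi_dkap_quotEquiv`      : `κ ⊗ B ≃+* B ⧸ (π)` for an `O`-algebra `B`;
* `ffi_dkap_lift`           : the `κ`-algebra map `κ ⊗ B → F` of a "reduction" `r : B → F`.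
-/
import Mathlib

set_option autoImplicit false
set_option linter.style.haveILetI false

noncomputable section

namespace Fermat.Agent.FF

open scoped TensorProduct

section Mod

variable {O : Type*} [CommRing O] {κ : Type*} [CommRing κ] [Algebra O κ]
  {M : Type*} [AddCommGroup M] [Module O M]

/-- every element of `κ ⊗ M` is `1 ⊗ x`. -/
theorem ffi_dkap_tmul_surj (hsurj : Function.Surjective (algebraMap O κ)) (u : κ ⊗[O] M) :
    ∃ x : M, u = (1 : κ) ⊗ₜ[O] x := by
  induction u using TensorProduct.induction_on with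
  | zero => exact ⟨0, (TensorProduct.tmul_zero _ _).symm⟩
  | tmul c x =>
    obtain ⟨o, rfl⟩ := hsurj c
    refine ⟨o • x, ?_⟩
    rw [Algebra.algebraMap_eq_smul_one, TensorProduct.smul_tmul]
  | add u v hu hv =>
    obtain ⟨x, rfl⟩ := hu
    obtain ⟨y, rfl⟩ := hv
    exact ⟨x + y, (TensorProduct.tmul_add _ _ _).symm⟩

/-- `1 ⊗ x = 0 ↔ x ∈ π M`. -/
theorem ffi_dkap_tmul_eq_zero (hsurj : Function.Surjective (algebraMap O κ)) {π : O}
    (hker : RingHom.ker (algebraMap O κ) = Ideal.span {π}) (x : M) :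
    (1 : κ) ⊗ₜ[O] x = 0 ↔ ∃ y : M, x = π • y := by
  constructor
  · intro h
    let e : (O ⧸ RingHom.ker (algebraMap O κ)) ≃ₐ[O] κ :=
      Ideal.quotientKerAlgEquivOfSurjective (f := Algebra.ofId O κ) hsurj
    let Φ : κ ⊗[O] M ≃ₗ[O] M ⧸ (RingHom.ker (algebraMap O κ) • (⊤ : Submodule O M)) :=
      (TensorProduct.congr e.symm.toLinearEquiv (LinearEquiv.refl O M)).trans
        (TensorProduct.quotTensorEquivQuotSMul M (RingHom.ker (algebraMap O κ)))
    have h1 : Φ ((1 : κ) ⊗ₜ[O] x) = Submodule.Quotient.mk x := by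
      change TensorProduct.quotTensorEquivQuotSMul M (RingHom.ker (algebraMap O κ))
        ((e.symm 1) ⊗ₜ[O] x) = _
      rw [map_one, TensorProduct.quotTensorEquivQuotSMul_mk_one_tmul]
    rw [h, map_zero] at h1
    have h2 : x ∈ RingHom.ker (algebraMap O κ) • (⊤ : Submodule O M) :=
      (Submodule.Quotient.mk_eq_zero _).1 h1.symm
    rw [hker, Submodule.ideal_span_singleton_smul] at h2
    obtain ⟨y, -, hy⟩ := h2
    exact ⟨y, hy.symm⟩
  · rintro ⟨y, rfl⟩
    have h0 : algebraMap O κ π = 0 := by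
      rw [← RingHom.mem_ker, hker]
      exact Ideal.mem_span_singleton_self π
    rw [← TensorProduct.smul_tmul, ← Algebra.algebraMap_eq_smul_one, h0, TensorProduct.zero_tmul]

/-- `κ ⊗ M' → κ ⊗ M` is injective when `M'` is `π`-saturated in `M`. -/
theorem ffi_dkap_baseChange_inj (hsurj : Function.Surjective (algebraMap O κ)) {π : O}
    (hker : RingHom.ker (algebraMap O κ) = Ideal.span {π}) (M' : Submodule O M)
    (hsat : ∀ a : M, π • a ∈ M' → a ∈ M') :
    Function.Injective (M'.subtype.baseChange κ) := by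
  rw [injective_iff_map_eq_zero]
  intro u hu
  obtain ⟨x, rfl⟩ := ffi_dkap_tmul_surj hsurj u
  rw [LinearMap.baseChange_tmul] at hu
  obtain ⟨y, hy⟩ := (ffi_dkap_tmul_eq_zero hsurj hker _).1 hu
  have hyM : y ∈ M' := hsat y (by rw [← hy]; exact x.2)
  exact (ffi_dkap_tmul_eq_zero hsurj hker x).2 ⟨⟨y, hyM⟩, Subtype.ext hy⟩

end Mod

section Alg

variable {O : Type*} [CommRing O] {κ : Type*} [CommRing κ] [Algebra O κ]
  {B : Type*} [CommRing B] [Algebra O B]

/-- `b ↦ 1 ⊗ b` is onto. -/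
theorem ffi_dkap_includeRight_surj (hsurj : Function.Surjective (algebraMap O κ)) :
    Function.Surjective (Algebra.TensorProduct.includeRight : B →ₐ[O] κ ⊗[O] B) := by
  intro u
  obtain ⟨x, rfl⟩ := ffi_dkap_tmul_surj hsurj u
  exact ⟨x, rfl⟩

/-- the kernel of `b ↦ 1 ⊗ b` is `(π)`. -/
theorem ffi_dkap_includeRight_ker (hsurj : Function.Surjective (algebraMap O κ)) {π : O}
    (hker : RingHom.ker (algebraMap O κ) = Ideal.span {π}) :
    RingHom.ker (Algebra.TensorProduct.includeRight : B →ₐ[O] κ ⊗[O] B) =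
      Ideal.span {algebraMap O B π} := by
  ext b
  rw [RingHom.mem_ker, Ideal.mem_span_singleton']
  change (1 : κ) ⊗ₜ[O] b = 0 ↔ _
  rw [ffi_dkap_tmul_eq_zero hsurj hker]
  constructor
  · rintro ⟨y, rfl⟩
    exact ⟨y, by rw [Algebra.smul_def, mul_comm]⟩
  · rintro ⟨y, rfl⟩
    exact ⟨y, by rw [Algebra.smul_def, mul_comm]⟩

/-- `κ ⊗ B ≃+* B ⧸ (π)`. -/
def ffi_dkap_quotEquiv (hsurj : Function.Surjective (algebraMap O κ)) {π : O}
    (hker : RingHom.ker (algebraMap O κ) = Ideal.span {π}) :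
    (B ⧸ Ideal.span {algebraMap O B π}) ≃+* κ ⊗[O] B :=
  (Ideal.quotEquivOfEq (ffi_dkap_includeRight_ker (B := B) hsurj hker).symm).trans
    (RingHom.quotientKerEquivOfSurjective
      (f := (Algebra.TensorProduct.includeRight : B →ₐ[O] κ ⊗[O] B).toRingHom)
      (ffi_dkap_includeRight_surj hsurj))

theorem ffi_dkap_quotEquiv_mk (hsurj : Function.Surjective (algebraMap O κ)) {π : O}
    (hker : RingHom.ker (algebraMap O κ) = Ideal.span {π}) (b : B) :
    ffi_dkap_quotEquiv (B := B) hsurj hker (Ideal.Quotient.mk _ b) = (1 : κ) ⊗ₜ[O] b := rfl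

end Alg

section Lift

variable {O : Type*} [CommRing O] {κ : Type*} [CommRing κ] [Algebra O κ]
  {B : Type*} [CommRing B] [Algebra O B] {F : Type*} [CommRing F] [Algebra κ F]

/-- the `κ`-algebra map `κ ⊗ B → F` of a reduction map `r : B → F` compatible with `O → κ`. -/
def ffi_dkap_lift (r : B →+* F)
    (hr : ∀ o : O, r (algebraMap O B o) = algebraMap κ F (algebraMap O κ o)) :
    κ ⊗[O] B →ₐ[κ] F :=
  letI : Algebra O F := ((algebraMap κ F).comp (algebraMap O κ)).toAlgebra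
  haveI : IsScalarTower O κ F := IsScalarTower.of_algebraMap_eq fun _ => rfl
  Algebra.TensorProduct.lift (Algebra.ofId κ F)
    ({ r with commutes' := hr } : B →ₐ[O] F) (fun _ _ => Commute.all _ _)

theorem ffi_dkap_lift_tmul (r : B →+* F)
    (hr : ∀ o : O, r (algebraMap O B o) = algebraMap κ F (algebraMap O κ o)) (c : κ) (b : B) :
    ffi_dkap_lift r hr (c ⊗ₜ[O] b) = algebraMap κ F c * r b := by
  letI : Algebra O F := ((algebraMap κ F).comp (algebraMap O κ)).toAlgebra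
  haveI : IsScalarTower O κ F := IsScalarTower.of_algebraMap_eq fun _ => rfl
  exact Algebra.TensorProduct.lift_tmul _ _ _ c b

theorem ffi_dkap_lift_one_tmul (r : B →+* F)
    (hr : ∀ o : O, r (algebraMap O B o) = algebraMap κ F (algebraMap O κ o)) (b : B) :
    ffi_dkap_lift r hr ((1 : κ) ⊗ₜ[O] b) = r b := by
  rw [ffi_dkap_lift_tmul, map_one, one_mul]

/-- the range of the lift is the range of `r`. -/
theorem ffi_dkap_mem_range_lift (hsurj : Function.Surjective (algebraMap O κ)) (r : B →+* F)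
    (hr : ∀ o : O, r (algebraMap O B o) = algebraMap κ F (algebraMap O κ o)) (f : F) :
    f ∈ (ffi_dkap_lift r hr).range ↔ ∃ b : B, r b = f := by
  constructor
  · rintro ⟨u, rfl⟩
    obtain ⟨x, rfl⟩ := ffi_dkap_tmul_surj hsurj u
    exact ⟨x, (ffi_dkap_lift_one_tmul r hr x).symm⟩
  · rintro ⟨b, rfl⟩
    exact ⟨(1 : κ) ⊗ₜ[O] b, ffi_dkap_lift_one_tmul r hr b⟩

/-- the lift is injective when the kernel of `r` is `(π)`. -/
theorem ffi_dkap_lift_injective (hsurj : Function.Surjective (algebraMap O κ)) {π : O}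
    (hker : RingHom.ker (algebraMap O κ) = Ideal.span {π}) (r : B →+* F)
    (hr : ∀ o : O, r (algebraMap O B o) = algebraMap κ F (algebraMap O κ o))
    (hrk : ∀ b : B, r b = 0 → ∃ b' : B, b = algebraMap O B π * b') :
    Function.Injective (ffi_dkap_lift r hr) := by
  rw [injective_iff_map_eq_zero]
  intro u hu
  obtain ⟨x, rfl⟩ := ffi_dkap_tmul_surj hsurj u
  rw [ffi_dkap_lift_one_tmul] at hu
  obtain ⟨b', rfl⟩ := hrk x hu
  exact (ffi_dkap_tmul_eq_zero hsurj hker _).2 ⟨b', by rw [Algebra.smul_def]⟩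

end Lift

section Integral

variable {O : Type*} [CommRing O] {κ : Type*} [CommRing κ] [Algebra O κ]
  {F : Type*} [CommRing F] [Algebra O F] {F' : Type*} [CommRing F'] [Algebra κ F']

/-- a reduction map `φ : B → F'` (compatible with `O → κ`) sends `O[x]` into `κ[X]`, `X = φ x`. -/
theorem ffi_dkap_red_adjoin_mem (x : F) (B : Subalgebra O F)
    (hB : Algebra.adjoin O ({x} : Set F) ≤ B) (φ : ↥B →+* F')
    (hφ : ∀ o : O, φ (algebraMap O ↥B o) = algebraMap κ F' (algebraMap O κ o))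
    (X : F') (hX : φ ⟨x, hB (Algebra.subset_adjoin rfl)⟩ = X) (r : F)
    (hr : r ∈ Algebra.adjoin O ({x} : Set F)) :
    φ ⟨r, hB hr⟩ ∈ Algebra.adjoin κ ({X} : Set F') := by
  induction hr using Algebra.adjoin_induction with
  | mem y hy =>
    rw [Set.mem_singleton_iff] at hy
    have h1 : (⟨y, hB (Algebra.subset_adjoin hy)⟩ : ↥B) = ⟨x, hB (Algebra.subset_adjoin rfl)⟩ :=
      Subtype.ext hy
    rw [h1, hX]
    exact Algebra.subset_adjoin rfl
  | algebraMap o =>
    have h1 : (⟨algebraMap O F o, hB (Subalgebra.algebraMap_mem _ o)⟩ : ↥B) = algebraMap O ↥B o :=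
      rfl
    rw [h1, hφ]
    exact Subalgebra.algebraMap_mem _ _
  | add y z hy hz hy' hz' =>
    have h1 : (⟨y + z, hB (Subalgebra.add_mem _ hy hz)⟩ : ↥B) = ⟨y, hB hy⟩ + ⟨z, hB hz⟩ := rfl
    rw [h1, map_add]
    exact Subalgebra.add_mem _ hy' hz'
  | mul y z hy hz hy' hz' =>
    have h1 : (⟨y * z, hB (Subalgebra.mul_mem _ hy hz)⟩ : ↥B) = ⟨y, hB hy⟩ * ⟨z, hB hz⟩ := rfl
    rw [h1, map_mul]
    exact Subalgebra.mul_mem _ hy' hz'

/-- a reduction map sends functions integral over `O[x]` to functions integral over `κ[X]`. -/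
theorem ffi_dkap_red_isIntegral (x : F) (B : Subalgebra O F)
    (hB : Algebra.adjoin O ({x} : Set F) ≤ B) (φ : ↥B →+* F')
    (hφ : ∀ o : O, φ (algebraMap O ↥B o) = algebraMap κ F' (algebraMap O κ o))
    (X : F') (hX : φ ⟨x, hB (Algebra.subset_adjoin rfl)⟩ = X) (b : ↥B)
    (hb : IsIntegral ↥(Algebra.adjoin O ({x} : Set F)) (b : F)) :
    IsIntegral ↥(Algebra.adjoin κ ({X} : Set F')) (φ b) := by
  let Θ : ↥(Algebra.adjoin O ({x} : Set F)) →+* ↥B := (Subalgebra.inclusion hB).toRingHom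
  let ρ : ↥(Algebra.adjoin O ({x} : Set F)) →+* ↥(Algebra.adjoin κ ({X} : Set F')) :=
    (φ.comp Θ).codRestrict (Algebra.adjoin κ ({X} : Set F')).toSubring
      (fun r => ffi_dkap_red_adjoin_mem x B hB φ hφ X hX r r.2)
  obtain ⟨p, hp, hpb⟩ := hb
  refine ⟨p.map ρ, hp.map ρ, ?_⟩
  rw [Polynomial.eval₂_map]
  have h1 : (algebraMap ↥(Algebra.adjoin κ ({X} : Set F')) F').comp ρ = φ.comp Θ := by
    ext r
    rfl
  rw [h1, ← Polynomial.hom_eval₂]
  have h2 : Polynomial.eval₂ Θ b p = 0 := by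
    apply Subtype.ext
    have h3 := Polynomial.hom_eval₂ p Θ B.toSubring.subtype b
    change ((Polynomial.eval₂ Θ b p : ↥B) : F) = 0
    rw [← hpb]
    exact h3
  rw [h2, map_zero]

end Integral

end Fermat.Agent.FF
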