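/-
Project FF (S19), cell [INST], leaf [P-Dκ] (helper21), part 2: the coefficientwise reduction of the
`q`-integral functions of `F_L` (level `(L, O₁ = A ∩ L)`), with values in `F̃_N` over a residue field
`π : A → κ` (GENERIC in `(κ, π)`, `ffi_ResOK`).  Prefix `ffi_dkap_`.

* `ffi_dkap_Int A L N`   : the subring of `F_L` of functions with a `q`-expansion over `O₁`;
* `ffi_dkap_red`         : `Int → F̃_N`, `f ↦ (w mod 𝔪)` (`rpm_mem_int`: the reduction lies in `F̃_N`);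
* `ffi_dkap_red_coe`     : its `q`-expansion;
* `ffi_dkap_res_surj`, `ffi_dkap_res_ker` : `O₁ → κ` is onto with kernel `(ℓ)`;
* `ffi_dkap_red_ker`     : on a chart with `rpn_Level0`, the kernel is generated by `ℓ`.
-/
import Mathlib
import Fermat.Agent.FF.Inst.Pkg.Assembly
import Fermat.Agent.JT3.PlaceMap.Level0Gen

set_option autoImplicit false
set_option linter.style.haveILetI false
set_option linter.unusedSectionVars false

noncomputable section

namespace Fermat.Agent.FF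

open ModularCurve AlgebraicCurve Fermat.Agent.JT3 Fermat.Agent.S24
open scoped TensorProduct

section Int

variable (A : ValuationSubring ff_Qb) (L : Type) [Field L] [Algebra L ff_Qb] (N : ℕ) [NeZero N]

/-- the `q`-integral functions of `F_L`: those with a `q`-expansion over `O₁`. -/
def ffi_dkap_Int : Subring ↥(modularFunctionFieldFullC L N) where
  carrier := {f | ∃ w : LaurentSeries ↥(ffi_O A L),
    coeffMap (algebraMap ↥(ffi_O A L) L) w = (f : LaurentSeries L)}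
  mul_mem' := by
    rintro f g ⟨y, hy⟩ ⟨z, hz⟩
    exact ⟨y * z, by rw [map_mul, hy, hz]; rfl⟩
  one_mem' := ⟨1, by rw [map_one]; rfl⟩
  add_mem' := by
    rintro f g ⟨y, hy⟩ ⟨z, hz⟩
    exact ⟨y + z, by rw [map_add, hy, hz]; rfl⟩
  zero_mem' := ⟨0, by rw [map_zero]; rfl⟩
  neg_mem' := by
    rintro f ⟨y, hy⟩
    exact ⟨-y, by rw [map_neg, hy]; rfl⟩

variable {A L N}

theorem ffi_dkap_mem_Int {f : ↥(modularFunctionFieldFullC L N)} :
    f ∈ ffi_dkap_Int A L N ↔ ∃ w : LaurentSeries ↥(ffi_O A L),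
      coeffMap (algebraMap ↥(ffi_O A L) L) w = (f : LaurentSeries L) := Iff.rfl

variable (A L N)

theorem ffi_dkap_j_mem_Int : ffi_j L N ∈ ffi_dkap_Int A L N :=
  ⟨jqModC ↥(ffi_O A L), by rw [coeffMap_jqModC]; rfl⟩

theorem ffi_dkap_jd_mem_Int {d : ℕ} [NeZero d] (hd : d ∣ N) :
    rpn_gen_jd L N hd ∈ ffi_dkap_Int A L N :=
  ⟨qExpand ↥(ffi_O A L) d (jqModC ↥(ffi_O A L)), by
    rw [coeffMap_qExpand, coeffMap_jqModC]; rfl⟩

theorem ffi_dkap_const_mem_Int (o : ↥(ffi_O A L)) :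
    algebraMap ↥(ffi_O A L) ↥(modularFunctionFieldFullC L N) o ∈ ffi_dkap_Int A L N :=
  ⟨HahnSeries.single 0 o, by
    rw [coeffMap_single, ← algebraMap_laurentSeries_eq_single]; rfl⟩

variable (κ : Type) [Field κ] [Algebra ↥(ffi_O A L) κ] (π : ↥A →+* κ)
variable {ℓ : ℕ} [Fact ℓ.Prime]

theorem ffi_dkap_toBar_mem_int (hℓN : ¬ ℓ ∣ N) (hA : A.LiesOverPrime ℓ)
    (hres : ffi_ResOK A L κ π) (f : ↥(ffi_dkap_Int A L N)) :
    ffi_toBar L N (f : ↥(modularFunctionFieldFullC L N)) ∈ rpg_intSubring A π N := by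
  obtain ⟨w, hw⟩ := f.2
  have hy : coeffMap A.subtype (coeffMap (ffi_OtoA A L) w) =
      ((ffi_toBar L N (f : ↥(modularFunctionFieldFullC L N)) : ↥(modularFunctionFieldBar N)) :
        LaurentSeries ff_Qb) := by
    rw [ffi_toBar_coe, ← hw, coeffMap_coeffMap, coeffMap_coeffMap]
    rfl
  obtain ⟨y', hy', hy'k⟩ := rpm_mem_int A N hℓN hA _ (coeffMap (ffi_OtoA A L) w) hy
  have hyy : y' = coeffMap (ffi_OtoA A L) w :=
    rpg_coeffMap_subtype_injective A (by rw [hy', hy])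
  subst hyy
  refine ⟨coeffMap (ffi_OtoA A L) w, hy, ?_⟩
  have hπ0 : ∀ a ∈ IsLocalRing.maximalIdeal ↥A, π a = 0 := fun a ha => by
    rw [hres.ker, A.mem_nonunits_iff_exists_mem_maximalIdeal]
    exact ⟨a.2, ha⟩
  let e : IsLocalRing.ResidueField ↥A →+* κ :=
    Ideal.Quotient.lift (IsLocalRing.maximalIdeal ↥A) π hπ0
  have he : e.comp (IsLocalRing.residue ↥A) = π := by
    ext a
    exact Ideal.Quotient.lift_mk (IsLocalRing.maximalIdeal ↥A) π hπ0
  rw [← he, ← coeffMap_coeffMap]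
  exact ffi_coeffMap_mem_fullC N e hy'k

/-- **the coefficientwise reduction** of the `q`-integral functions. -/
def ffi_dkap_red (hℓN : ¬ ℓ ∣ N) (hA : A.LiesOverPrime ℓ) (hres : ffi_ResOK A L κ π) :
    ↥(ffi_dkap_Int A L N) →+* ↥(modularFunctionFieldFullC κ N) :=
  (rpg_intRed A π N).comp
    (((ffi_toBar L N).comp (ffi_dkap_Int A L N).subtype).codRestrict _
      (ffi_dkap_toBar_mem_int A L N κ π hℓN hA hres))

theorem ffi_dkap_red_coe (hℓN : ¬ ℓ ∣ N) (hA : A.LiesOverPrime ℓ) (hres : ffi_ResOK A L κ π)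
    (f : ↥(ffi_dkap_Int A L N)) (w : LaurentSeries ↥(ffi_O A L))
    (hw : coeffMap (algebraMap ↥(ffi_O A L) L) w =
      ((f : ↥(modularFunctionFieldFullC L N)) : LaurentSeries L)) :
    ((ffi_dkap_red A L N κ π hℓN hA hres f : ↥(modularFunctionFieldFullC κ N)) :
        LaurentSeries κ) = coeffMap (algebraMap ↥(ffi_O A L) κ) w := by
  have hy : coeffMap A.subtype (coeffMap (ffi_OtoA A L) w) =
      ((ffi_toBar L N (f : ↥(modularFunctionFieldFullC L N)) : ↥(modularFunctionFieldBar N)) :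
        LaurentSeries ff_Qb) := by
    rw [ffi_toBar_coe, ← hw, coeffMap_coeffMap, coeffMap_coeffMap]
    rfl
  change coeffMap π (rpg_intLift A π N _) = _
  rw [rpg_intLift_eq A π N _ (coeffMap (ffi_OtoA A L) w) hy, coeffMap_coeffMap]
  exact coeffMap_congr (RingHom.ext fun o => (hres.comp o).symm) w

theorem ffi_dkap_red_ext (hℓN : ¬ ℓ ∣ N) (hA : A.LiesOverPrime ℓ) (hres : ffi_ResOK A L κ π)
    (f : ↥(ffi_dkap_Int A L N)) (w : LaurentSeries ↥(ffi_O A L))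
    (hw : coeffMap (algebraMap ↥(ffi_O A L) L) w =
      ((f : ↥(modularFunctionFieldFullC L N)) : LaurentSeries L))
    (g : ↥(modularFunctionFieldFullC κ N))
    (hg : (g : LaurentSeries κ) = coeffMap (algebraMap ↥(ffi_O A L) κ) w) :
    ffi_dkap_red A L N κ π hℓN hA hres f = g :=
  Subtype.ext (by rw [ffi_dkap_red_coe A L N κ π hℓN hA hres f w hw, hg])

/-- the reduction of `j` is `j̃`. -/
theorem ffi_dkap_red_j (hℓN : ¬ ℓ ∣ N) (hA : A.LiesOverPrime ℓ) (hres : ffi_ResOK A L κ π) :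
    ffi_dkap_red A L N κ π hℓN hA hres ⟨ffi_j L N, ffi_dkap_j_mem_Int A L N⟩ = ffi_j κ N :=
  ffi_dkap_red_ext A L N κ π hℓN hA hres _ (jqModC ↥(ffi_O A L))
    (by rw [coeffMap_jqModC]; rfl) _ (by rw [coeffMap_jqModC]; rfl)

/-- the reduction of `j(q^d)` is `j̃(q^d)`. -/
theorem ffi_dkap_red_jd (hℓN : ¬ ℓ ∣ N) (hA : A.LiesOverPrime ℓ) (hres : ffi_ResOK A L κ π)
    {d : ℕ} [NeZero d] (hd : d ∣ N) :
    ffi_dkap_red A L N κ π hℓN hA hres ⟨rpn_gen_jd L N hd, ffi_dkap_jd_mem_Int A L N hd⟩ =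
      rpn_gen_jd κ N hd :=
  ffi_dkap_red_ext A L N κ π hℓN hA hres _ (qExpand ↥(ffi_O A L) d (jqModC ↥(ffi_O A L)))
    (by rw [coeffMap_qExpand, coeffMap_jqModC]; rfl) _
    (by rw [coeffMap_qExpand, coeffMap_jqModC]; rfl)

/-- the reduction of a constant. -/
theorem ffi_dkap_red_const (hℓN : ¬ ℓ ∣ N) (hA : A.LiesOverPrime ℓ) (hres : ffi_ResOK A L κ π)
    (o : ↥(ffi_O A L)) :
    ffi_dkap_red A L N κ π hℓN hA hres ⟨_, ffi_dkap_const_mem_Int A L N o⟩ =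
      algebraMap κ ↥(modularFunctionFieldFullC κ N) (algebraMap ↥(ffi_O A L) κ o) :=
  ffi_dkap_red_ext A L N κ π hℓN hA hres _ (HahnSeries.single 0 o)
    (by rw [coeffMap_single, ← algebraMap_laurentSeries_eq_single]; rfl) _
    (by rw [coeffMap_single, ← algebraMap_laurentSeries_eq_single]; rfl)

end Int

section Res

variable (A : ValuationSubring ff_Qb) (L : Type) [Field L] [Algebra L ff_Qb]
  (κ : Type) [Field κ] [Algebra ↥(ffi_O A L) κ] (π : ↥A →+* κ) (ℓ : ℕ)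

/-- `O₁ → κ` is onto. -/
theorem ffi_dkap_res_surj (lvl : ffi_LvlOK A L ℓ) (hres : ffi_ResOK A L κ π) :
    Function.Surjective (algebraMap ↥(ffi_O A L) κ) := by
  intro y
  obtain ⟨a, rfl⟩ := hres.surj y
  obtain ⟨c, hcA, hc⟩ := lvl.res a
  refine ⟨⟨c, hcA⟩, ?_⟩
  rw [hres.comp]
  symm
  rw [← sub_eq_zero, ← map_sub, hres.ker]
  exact hc

/-- the kernel of `O₁ → κ` is generated by `ℓ`. -/
theorem ffi_dkap_res_ker (lvl : ffi_LvlOK A L ℓ) (hres : ffi_ResOK A L κ π) :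
    RingHom.ker (algebraMap ↥(ffi_O A L) κ) = Ideal.span {((ℓ : ℕ) : ↥(ffi_O A L))} := by
  haveI := lvl.dvr
  rw [← lvl.irr.maximalIdeal_eq]
  ext o
  rw [RingHom.mem_ker, IsLocalRing.mem_maximalIdeal, mem_nonunits_iff, ffi_isUnit_iff, hres.comp,
    hres.ker, A.mem_nonunits_iff_exists_mem_maximalIdeal]
  constructor
  · rintro ⟨h1, h2⟩
    exact (IsLocalRing.mem_maximalIdeal _).1 h2
  · intro h
    exact ⟨(ffi_OtoA A L o).2, (IsLocalRing.mem_maximalIdeal _).2 h⟩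

/-- the residue field has characteristic `ℓ`. -/
theorem ffi_dkap_charP [Fact ℓ.Prime] (lvl : ffi_LvlOK A L ℓ) (hres : ffi_ResOK A L κ π) :
    CharP κ ℓ := by
  have h0 : ((ℓ : ℕ) : κ) = 0 := by
    have h1 : ((ℓ : ℕ) : ↥(ffi_O A L)) ∈ RingHom.ker (algebraMap ↥(ffi_O A L) κ) := by
      rw [ffi_dkap_res_ker A L κ π ℓ lvl hres]
      exact Ideal.mem_span_singleton_self _
    rw [RingHom.mem_ker, map_natCast] at h1
    exact h1
  obtain ⟨c, hc⟩ := CharP.exists κ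
  have hdvd : c ∣ ℓ := (CharP.cast_eq_zero_iff κ c ℓ).mp h0
  rcases (Nat.dvd_prime (Fact.out : ℓ.Prime)).mp hdvd with h1 | h1
  · exact absurd h1 (CharP.char_ne_one κ c)
  · rwa [h1] at hc

end Res

section Ker

variable (A : ValuationSubring ff_Qb) (L : Type) [Field L] [Algebra ℚ L] [Algebra L ff_Qb]
  [IsScalarTower ℚ L ff_Qb] [IsDiscreteValuationRing ↥(ffi_O A L)] (N : ℕ) [NeZero N]
  (κ : Type) [Field κ] [Algebra ↥(ffi_O A L) κ] (π : ↥A →+* κ)
  {ℓ : ℕ} [Fact ℓ.Prime]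

/-- **the kernel of the reduction on a chart is generated by `ℓ`.** -/
theorem ffi_dkap_red_ker (hℓN : ¬ ℓ ∣ N) (hA : A.LiesOverPrime ℓ) (hres : ffi_ResOK A L κ π)
    (lvl : ffi_LvlOK A L ℓ) {x : ↥(modularFunctionFieldFullC L N)}
    (H : rpn_Level0 (modularFunctionFieldFullC L N) ((ℓ : ℕ) : ↥(ffi_O A L)) x)
    {b : ↥(modularFunctionFieldFullC L N)}
    (hb : b ∈ fc_chart ↥(ffi_O A L) ({x} : Set ↥(modularFunctionFieldFullC L N)))
    (h0 : ffi_dkap_red A L N κ π hℓN hA hres ⟨b, H.qint b hb⟩ = 0) :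
    ∃ b' ∈ fc_chart ↥(ffi_O A L) ({x} : Set ↥(modularFunctionFieldFullC L N)),
      b = algebraMap ↥(ffi_O A L) ↥(modularFunctionFieldFullC L N) ((ℓ : ℕ) : ↥(ffi_O A L)) * b' := by
  obtain ⟨w, hw⟩ := H.qint b hb
  refine H.ker b hb w hw ?_
  have h1 := ffi_dkap_red_coe A L N κ π hℓN hA hres ⟨b, H.qint b hb⟩ w hw
  rw [h0] at h1
  ext n
  rw [coeffMap_coeff]
  have h2 : algebraMap ↥(ffi_O A L) κ (w.coeff n) = 0 := by
    have := congrArg (fun z : LaurentSeries κ => z.coeff n) h1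
    simp only [coeffMap_coeff] at this
    exact this.symm
  have h3 : w.coeff n ∈ RingHom.ker (algebraMap ↥(ffi_O A L) κ) := h2
  rw [ffi_dkap_res_ker A L κ π ℓ lvl hres, ← lvl.irr.maximalIdeal_eq] at h3
  exact (IsLocalRing.residue_eq_zero_iff _).2 h3

end Ker

end Fermat.Agent.FF
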