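/-
Project FF (S19), cell [INST], leaf [P-Dκ] (helper21), part 4: ONE chart of the special fibre
(GENERIC in the residue field `π : A → κ`).
For a coordinate `x ∈ F_L` with `rpn_Level0` at the level `(L, O₁)`, whose reduction `X` is a
separating generator of `F̃_N / κ`, and such that `x^M j(q^d)` lies in the chart for all `d ∣ N`:
`κ ⊗ chart → F̃_N` (coefficientwise reduction) is injective with range the chart of `X`, the fibre
is a Dedekind domain and not a field.  Prefix `ffi_dkap_`.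
-/
import Mathlib
import Fermat.Agent.FF.Inst.Pkg.DKap.Fibre
import Fermat.Agent.FF.Inst.Pkg.DKap.Red
import Fermat.Agent.FF.Inst.Pkg.DKap.Chart

set_option autoImplicit false
set_option linter.style.haveILetI false
set_option linter.unusedSectionVars false

noncomputable section

namespace Fermat.Agent.FF

open ModularCurve AlgebraicCurve Fermat.Agent.JT3 Fermat.Agent.S24 Polynomial
open scoped TensorProduct

section OneChart

variable (A : ValuationSubring ff_Qb) (L : Type) [Field L] [Algebra ℚ L] [Algebra L ff_Qb]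
  [IsScalarTower ℚ L ff_Qb] [IsDiscreteValuationRing ↥(ffi_O A L)] (N : ℕ) [NeZero N]
  (κ : Type) [Field κ] [Algebra ↥(ffi_O A L) κ] (π : ↥A →+* κ)
  {ℓ : ℕ} [Fact ℓ.Prime] (hℓN : ¬ ℓ ∣ N) (hA : A.LiesOverPrime ℓ) (hres : ffi_ResOK A L κ π)

/-- instance shortcut (the generic search is slow). -/
local instance (priority := 10000) ffi_dkap_instAlgOF :
    Algebra ↥(ffi_O A L) ↥(modularFunctionFieldFullC L N) := inferInstance

/-- instance shortcut (the generic search is slow). -/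
local instance (priority := 10000) ffi_dkap_instAlgKF :
    Algebra κ ↥(modularFunctionFieldFullC κ N) := inferInstance

/-- the reduction restricted to a chart. -/
def ffi_dkap_redChart {x : ↥(modularFunctionFieldFullC L N)}
    (H : rpn_Level0 (modularFunctionFieldFullC L N) ((ℓ : ℕ) : ↥(ffi_O A L)) x) :
    ↥(fc_chart ↥(ffi_O A L) ({x} : Set ↥(modularFunctionFieldFullC L N))) →+*
      ↥(modularFunctionFieldFullC κ N) :=
  (ffi_dkap_red A L N κ π hℓN hA hres).comp
    ((fc_chart ↥(ffi_O A L) ({x} : Set ↥(modularFunctionFieldFullC L N))).toSubring.subtype.codRestrict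
      (ffi_dkap_Int A L N) (fun b => H.qint b b.2))

theorem ffi_dkap_redChart_apply {x : ↥(modularFunctionFieldFullC L N)}
    (H : rpn_Level0 (modularFunctionFieldFullC L N) ((ℓ : ℕ) : ↥(ffi_O A L)) x)
    (b : ↥(fc_chart ↥(ffi_O A L) ({x} : Set ↥(modularFunctionFieldFullC L N)))) :
    ffi_dkap_redChart A L N κ π hℓN hA hres H b =
      ffi_dkap_red A L N κ π hℓN hA hres ⟨b, H.qint b b.2⟩ := rfl

theorem ffi_dkap_redChart_const {x : ↥(modularFunctionFieldFullC L N)}
    (H : rpn_Level0 (modularFunctionFieldFullC L N) ((ℓ : ℕ) : ↥(ffi_O A L)) x)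
    (o : ↥(ffi_O A L)) :
    ffi_dkap_redChart A L N κ π hℓN hA hres H
        (algebraMap ↥(ffi_O A L)
          ↥(fc_chart ↥(ffi_O A L) ({x} : Set ↥(modularFunctionFieldFullC L N))) o) =
      algebraMap κ ↥(modularFunctionFieldFullC κ N) (algebraMap ↥(ffi_O A L) κ o) :=
  ffi_dkap_red_const A L N κ π hℓN hA hres o

theorem ffi_dkap_redChart_coe {x : ↥(modularFunctionFieldFullC L N)}
    (H : rpn_Level0 (modularFunctionFieldFullC L N) ((ℓ : ℕ) : ↥(ffi_O A L)) x)
    (b : ↥(fc_chart ↥(ffi_O A L) ({x} : Set ↥(modularFunctionFieldFullC L N))))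
    (w : LaurentSeries ↥(ffi_O A L))
    (hw : coeffMap (algebraMap ↥(ffi_O A L) L) w =
      ((b : ↥(modularFunctionFieldFullC L N)) : LaurentSeries L)) :
    ((ffi_dkap_redChart A L N κ π hℓN hA hres H b : ↥(modularFunctionFieldFullC κ N)) :
        LaurentSeries κ) = coeffMap (algebraMap ↥(ffi_O A L) κ) w :=
  ffi_dkap_red_coe A L N κ π hℓN hA hres _ w hw

/-- the kernel of the reduction on a chart. -/
theorem ffi_dkap_redChart_ker (lvl : ffi_LvlOK A L ℓ) {x : ↥(modularFunctionFieldFullC L N)}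
    (H : rpn_Level0 (modularFunctionFieldFullC L N) ((ℓ : ℕ) : ↥(ffi_O A L)) x)
    (b : ↥(fc_chart ↥(ffi_O A L) ({x} : Set ↥(modularFunctionFieldFullC L N))))
    (h0 : ffi_dkap_redChart A L N κ π hℓN hA hres H b = 0) :
    ∃ b' : ↥(fc_chart ↥(ffi_O A L) ({x} : Set ↥(modularFunctionFieldFullC L N))),
      b = algebraMap ↥(ffi_O A L)
        ↥(fc_chart ↥(ffi_O A L) ({x} : Set ↥(modularFunctionFieldFullC L N)))
        ((ℓ : ℕ) : ↥(ffi_O A L)) * b' := by
  obtain ⟨b', hb', hbb'⟩ := ffi_dkap_red_ker A L N κ π hℓN hA hres lvl H b.2 h0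
  exact ⟨⟨b', hb'⟩, Subtype.ext hbb'⟩

/-- the reduction of a chart function is integral over `κ[X]`, `X` the reduction of `x`. -/
theorem ffi_dkap_redChart_isIntegral {x : ↥(modularFunctionFieldFullC L N)}
    (H : rpn_Level0 (modularFunctionFieldFullC L N) ((ℓ : ℕ) : ↥(ffi_O A L)) x)
    {X : ↥(modularFunctionFieldFullC κ N)}
    (hxX : ffi_dkap_redChart A L N κ π hℓN hA hres H ⟨x, fc_x_mem_chart x⟩ = X)
    (b : ↥(fc_chart ↥(ffi_O A L) ({x} : Set ↥(modularFunctionFieldFullC L N)))) :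
    IsIntegral (Algebra.adjoin κ ({X} : Set ↥(modularFunctionFieldFullC κ N)))
      (ffi_dkap_redChart A L N κ π hℓN hA hres H b) :=
  ffi_dkap_red_isIntegral x
    (fc_chart ↥(ffi_O A L) ({x} : Set ↥(modularFunctionFieldFullC L N)))
    (fc_adjoin_le_chart _) (ffi_dkap_redChart A L N κ π hℓN hA hres H)
    (ffi_dkap_redChart_const A L N κ π hℓN hA hres H) X hxX b (fc_mem_chart.1 b.2)

/-- **the comparison map of one chart**: `κ ⊗ chart → F̃_N`, coefficientwise reduction. -/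
def ffi_dkap_iota {x : ↥(modularFunctionFieldFullC L N)}
    (H : rpn_Level0 (modularFunctionFieldFullC L N) ((ℓ : ℕ) : ↥(ffi_O A L)) x) :
    κ ⊗[↥(ffi_O A L)] ↥(fc_chart ↥(ffi_O A L) ({x} : Set ↥(modularFunctionFieldFullC L N)))
      →ₐ[κ] ↥(modularFunctionFieldFullC κ N) :=
  ffi_dkap_lift (ffi_dkap_redChart A L N κ π hℓN hA hres H)
    (ffi_dkap_redChart_const A L N κ π hℓN hA hres H)

theorem ffi_dkap_iota_one_tmul {x : ↥(modularFunctionFieldFullC L N)}
    (H : rpn_Level0 (modularFunctionFieldFullC L N) ((ℓ : ℕ) : ↥(ffi_O A L)) x)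
    (b : ↥(fc_chart ↥(ffi_O A L) ({x} : Set ↥(modularFunctionFieldFullC L N)))) :
    ffi_dkap_iota A L N κ π hℓN hA hres H ((1 : κ) ⊗ₜ[↥(ffi_O A L)] b) =
      ffi_dkap_redChart A L N κ π hℓN hA hres H b :=
  ffi_dkap_lift_one_tmul _ _ b

/-- **one chart of the special fibre.** -/
theorem ffi_dkap_oneChart (lvl : ffi_LvlOK A L ℓ) {x : ↥(modularFunctionFieldFullC L N)}
    (H : rpn_Level0 (modularFunctionFieldFullC L N) ((ℓ : ℕ) : ↥(ffi_O A L)) x)
    {X : ↥(modularFunctionFieldFullC κ N)} (hX : rt_IsSepGen κ X)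
    (hxX : ffi_dkap_redChart A L N κ π hℓN hA hres H ⟨x, fc_x_mem_chart x⟩ = X)
    (hgen : ∀ (d : ℕ) [NeZero d] (hd : d ∣ N), ∃ M : ℕ, x ^ M * rpn_gen_jd L N hd ∈
      fc_chart ↥(ffi_O A L) ({x} : Set ↥(modularFunctionFieldFullC L N))) :
    Function.Injective (ffi_dkap_iota A L N κ π hℓN hA hres H) ∧
    (∀ f : ↥(modularFunctionFieldFullC κ N),
      f ∈ (ffi_dkap_iota A L N κ π hℓN hA hres H).range ↔
        ∀ v : Place κ ↥(modularFunctionFieldFullC κ N),
          X ∈ v.toValuationSubring → f ∈ v.toValuationSubring) ∧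
    IsDedekindDomain (κ ⊗[↥(ffi_O A L)]
      ↥(fc_chart ↥(ffi_O A L) ({x} : Set ↥(modularFunctionFieldFullC L N)))) ∧
    ¬ IsField (κ ⊗[↥(ffi_O A L)]
      ↥(fc_chart ↥(ffi_O A L) ({x} : Set ↥(modularFunctionFieldFullC L N)))) := by
  have hsurj := ffi_dkap_res_surj A L κ π ℓ lvl hres
  have hker := ffi_dkap_res_ker A L κ π ℓ lvl hres
  have hinj : Function.Injective (ffi_dkap_iota A L N κ π hℓN hA hres H) :=
    ffi_dkap_lift_injective hsurj hker _ _
      (fun b hb => ffi_dkap_redChart_ker A L N κ π hℓN hA hres lvl H b hb)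
  haveI hded : IsDedekindDomain (κ ⊗[↥(ffi_O A L)]
      ↥(fc_chart ↥(ffi_O A L) ({x} : Set ↥(modularFunctionFieldFullC L N)))) := by
    haveI := H.ded
    exact nq_isDedekindDomain_of_ringEquiv (ffi_dkap_quotEquiv hsurj hker).symm
  have hxB : ∃ u, ffi_dkap_iota A L N κ π hℓN hA hres H u = X :=
    ⟨(1 : κ) ⊗ₜ[↥(ffi_O A L)] ⟨x, fc_x_mem_chart x⟩, by
      rw [ffi_dkap_iota_one_tmul]; exact hxX⟩
  have hint : ∀ u, IsIntegral (Algebra.adjoin κ ({X} : Set ↥(modularFunctionFieldFullC κ N)))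
      (ffi_dkap_iota A L N κ π hℓN hA hres H u) := by
    intro u
    obtain ⟨b, rfl⟩ := ffi_dkap_tmul_surj hsurj u
    rw [ffi_dkap_iota_one_tmul]
    exact ffi_dkap_redChart_isIntegral A L N κ π hℓN hA hres H hxX b
  have hX0 : X ≠ 0 := by
    intro h
    apply hX.1
    rw [h]
    exact isAlgebraic_zero
  have hmemr : ∀ b : ↥(fc_chart ↥(ffi_O A L) ({x} : Set ↥(modularFunctionFieldFullC L N))),
      ffi_dkap_redChart A L N κ π hℓN hA hres H b ∈
        (ffi_dkap_iota A L N κ π hℓN hA hres H).range :=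
    fun b => ⟨_, ffi_dkap_iota_one_tmul A L N κ π hℓN hA hres H b⟩
  have hfrac : ∀ f : ↥(modularFunctionFieldFullC κ N),
      ∃ b c, ffi_dkap_iota A L N κ π hℓN hA hres H c ≠ 0 ∧
        f * ffi_dkap_iota A L N κ π hℓN hA hres H c =
          ffi_dkap_iota A L N κ π hℓN hA hres H b := by
    intro f
    have hgen' : ∀ (d : ℕ) [NeZero d] (hd : d ∣ N), rpn_gen_jd κ N hd ∈
        Subfield.closure ((ffi_dkap_iota A L N κ π hℓN hA hres H).range :
          Set ↥(modularFunctionFieldFullC κ N)) := by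
      intro d _ hd
      obtain ⟨M, hM⟩ := hgen d hd
      have h1 : ffi_dkap_redChart A L N κ π hℓN hA hres H ⟨x ^ M * rpn_gen_jd L N hd, hM⟩ =
          X ^ M * rpn_gen_jd κ N hd := by
        rw [← hxX, ffi_dkap_redChart_apply, ffi_dkap_redChart_apply,
          ← ffi_dkap_red_jd A L N κ π hℓN hA hres hd, ← map_pow, ← map_mul]
        rfl
      have h2 : rpn_gen_jd κ N hd =
          ffi_dkap_redChart A L N κ π hℓN hA hres H ⟨x ^ M * rpn_gen_jd L N hd, hM⟩ / X ^ M := by
        rw [h1, mul_div_cancel_left₀ _ (pow_ne_zero M hX0)]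
      rw [h2]
      refine div_mem (Subfield.subset_closure (hmemr _))
        (pow_mem (Subfield.subset_closure ?_) M)
      rw [← hxX]
      exact hmemr _
    obtain ⟨b, ⟨ub, hub⟩, c, ⟨uc, huc⟩, hc0, hfc⟩ :=
      ffi_dkap_frac_of_gens κ N (ffi_dkap_iota A L N κ π hℓN hA hres H).range hgen' f
    refine ⟨ub, uc, ?_, ?_⟩
    · rw [← huc] at hc0; exact hc0
    · rw [← huc, ← hub] at hfc; exact hfc
  refine ⟨hinj, ?_, hded, ?_⟩
  · exact ffi_dkap_chart_of_closed hX (ffi_dkap_iota A L N κ π hℓN hA hres H) hinj hxB hint hfrac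
  · exact ffi_dkap_not_isField hX.1 (ffi_dkap_iota A L N κ π hℓN hA hres H) hinj hxB hint

end OneChart

end Fermat.Agent.FF
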