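/-
Project FF (S19), cell [INST], leaf [P-Dκ] (helper21), part 5: GLUING on the special fibre
(GENERIC in the residue field `π : A → κ`).  If the reductions of `a ∈ 𝒜`, `a' ∈ 𝒜'` satisfy
`ã = j̃^m ã'`, then `a - ℓ a₁ ∈ Λ m = 𝒜 ∩ j^m 𝒜'` for some `a₁ ∈ 𝒜` (Čech + `rpn_Level0.ker`).
Prefix `ffi_dkap_`.
-/
import Mathlib
import Fermat.Agent.FF.Inst.Pkg.DKap.OneChart

set_option autoImplicit false
set_option linter.style.haveILetI false
set_option linter.unusedSectionVars false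

noncomputable section

namespace Fermat.Agent.FF

open ModularCurve AlgebraicCurve Fermat.Agent.JT3 Fermat.Agent.S24 Polynomial
open scoped TensorProduct

section Glue

variable (A : ValuationSubring ff_Qb) (L : Type) [Field L] [Algebra ℚ L] [Algebra L ff_Qb]
  [IsScalarTower ℚ L ff_Qb] [IsDiscreteValuationRing ↥(ffi_O A L)] (N : ℕ) [NeZero N]
  (κ : Type) [Field κ] [Algebra ↥(ffi_O A L) κ] (π : ↥A →+* κ)
  {ℓ : ℕ} [Fact ℓ.Prime] (hℓN : ¬ ℓ ∣ N) (hA : A.LiesOverPrime ℓ) (hres : ffi_ResOK A L κ π)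

/-- instance shortcut (the generic search is slow). -/
local instance (priority := 10000) ffi_dkap_instAlgOF' :
    Algebra ↥(ffi_O A L) ↥(modularFunctionFieldFullC L N) := inferInstance

/-- instance shortcut (the generic search is slow). -/
local instance (priority := 10000) ffi_dkap_instAlgKF' :
    Algebra κ ↥(modularFunctionFieldFullC κ N) := inferInstance

theorem ffi_dkap_j_ne_zero : ffi_j L N ≠ 0 := by
  intro h
  have := congrArg (fun f : ↥(modularFunctionFieldFullC L N) => (f : LaurentSeries L)) h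
  exact jqModC_ne_zero_of_nontrivial L this

/-- **gluing on the special fibre.** -/
theorem ffi_dkap_glue (lvl : ffi_LvlOK A L ℓ)
    (H1 : rpn_Level0 (modularFunctionFieldFullC L N) ((ℓ : ℕ) : ↥(ffi_O A L)) (ffi_j L N))
    (H2 : rpn_Level0 (modularFunctionFieldFullC L N) ((ℓ : ℕ) : ↥(ffi_O A L)) (ffi_j L N)⁻¹)
    (m : ℕ)
    (hcech : ∀ f ∈ fc_chart ↥(ffi_O A L)
        ({ffi_j L N, (ffi_j L N)⁻¹} : Set ↥(modularFunctionFieldFullC L N)),
      ∃ a ∈ ffi_A1 A L N, ∃ b ∈ ffi_A2 A L N, f = a + ffi_j L N ^ m * b)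
    (a : ↥(ffi_A1 A L N)) (a' : ↥(ffi_A2 A L N))
    (h : ffi_dkap_redChart A L N κ π hℓN hA hres H1 a =
      ffi_j κ N ^ m * ffi_dkap_redChart A L N κ π hℓN hA hres H2 a') :
    ∃ a₁ : ↥(ffi_A1 A L N),
      a - algebraMap ↥(ffi_O A L) ↥(ffi_A1 A L N) ((ℓ : ℕ) : ↥(ffi_O A L)) * a₁ ∈
        ffi_gLam ↥(ffi_O A L) (ffi_j L N) m := by
  have hj0 : ffi_j L N ≠ 0 := ffi_dkap_j_ne_zero L N
  have haI : (a : ↥(modularFunctionFieldFullC L N)) ∈ ffi_dkap_Int A L N := H1.qint a a.2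
  have ha'I : (a' : ↥(modularFunctionFieldFullC L N)) ∈ ffi_dkap_Int A L N := H2.qint a' a'.2
  have hjI : ffi_j L N ∈ ffi_dkap_Int A L N := ffi_dkap_j_mem_Int A L N
  have hjinvI : (ffi_j L N)⁻¹ ∈ ffi_dkap_Int A L N := H2.qint _ (fc_x_mem_chart _)
  have hfI : (a : ↥(modularFunctionFieldFullC L N)) - ffi_j L N ^ m *
      (a' : ↥(modularFunctionFieldFullC L N)) ∈ ffi_dkap_Int A L N :=
    sub_mem haI (mul_mem (pow_mem hjI m) ha'I)
  have hf0 : ffi_dkap_red A L N κ π hℓN hA hres ⟨_, hfI⟩ = 0 := by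
    have h1 : (⟨_, hfI⟩ : ↥(ffi_dkap_Int A L N)) = ⟨a, haI⟩ - ⟨ffi_j L N, hjI⟩ ^ m * ⟨a', ha'I⟩ :=
      rfl
    rw [h1, map_sub, map_mul, map_pow, ffi_dkap_red_j, sub_eq_zero]
    exact h
  have hf12 : (a : ↥(modularFunctionFieldFullC L N)) - ffi_j L N ^ m *
      (a' : ↥(modularFunctionFieldFullC L N)) ∈ fc_chart ↥(ffi_O A L)
        ({ffi_j L N, (ffi_j L N)⁻¹} : Set ↥(modularFunctionFieldFullC L N)) :=
    sub_mem (fc_chart1_le _ a.2)
      (mul_mem (pow_mem (fc_chart1_le _ (fc_x_mem_chart _)) m) (fc_chart2_le _ a'.2))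
  obtain ⟨s, hs⟩ := fc_clear2 hj0 hf12
  have hs0 : ffi_dkap_red A L N κ π hℓN hA hres ⟨_, H2.qint _ hs⟩ = 0 := by
    have h1 : (⟨_, H2.qint _ hs⟩ : ↥(ffi_dkap_Int A L N)) =
        ⟨(ffi_j L N)⁻¹, hjinvI⟩ ^ s * ⟨_, hfI⟩ := rfl
    rw [h1, map_mul, hf0, mul_zero]
  obtain ⟨c, hc, hcc⟩ := ffi_dkap_red_ker A L N κ π hℓN hA hres lvl H2 hs hs0
  have hf' : (a : ↥(modularFunctionFieldFullC L N)) - ffi_j L N ^ m *
      (a' : ↥(modularFunctionFieldFullC L N)) =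
      algebraMap ↥(ffi_O A L) ↥(modularFunctionFieldFullC L N) ((ℓ : ℕ) : ↥(ffi_O A L)) *
        (ffi_j L N ^ s * c) := by
    have h1 : ffi_j L N ^ s * ((ffi_j L N)⁻¹ ^ s * ((a : ↥(modularFunctionFieldFullC L N)) -
        ffi_j L N ^ m * (a' : ↥(modularFunctionFieldFullC L N)))) =
        (a : ↥(modularFunctionFieldFullC L N)) - ffi_j L N ^ m *
          (a' : ↥(modularFunctionFieldFullC L N)) := by
      rw [← mul_assoc, ← mul_pow, mul_inv_cancel₀ hj0, one_pow, one_mul]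
    rw [← h1, hcc]
    ring
  have hc12 : ffi_j L N ^ s * c ∈ fc_chart ↥(ffi_O A L)
      ({ffi_j L N, (ffi_j L N)⁻¹} : Set ↥(modularFunctionFieldFullC L N)) :=
    mul_mem (pow_mem (fc_chart1_le _ (fc_x_mem_chart _)) s) (fc_chart2_le _ hc)
  obtain ⟨a₁, ha₁, b₁, hb₁, hab⟩ := hcech _ hc12
  refine ⟨⟨a₁, ha₁⟩, ?_⟩
  rw [ffi_mem_gLam]
  have key : ((a : ↥(modularFunctionFieldFullC L N)) -
      algebraMap ↥(ffi_O A L) ↥(modularFunctionFieldFullC L N) ((ℓ : ℕ) : ↥(ffi_O A L)) * a₁) *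
        (ffi_j L N)⁻¹ ^ m =
      (a' : ↥(modularFunctionFieldFullC L N)) +
        algebraMap ↥(ffi_O A L) ↥(modularFunctionFieldFullC L N) ((ℓ : ℕ) : ↥(ffi_O A L)) * b₁ := by
    have h1 : (a : ↥(modularFunctionFieldFullC L N)) - ffi_j L N ^ m *
        (a' : ↥(modularFunctionFieldFullC L N)) =
        algebraMap ↥(ffi_O A L) ↥(modularFunctionFieldFullC L N) ((ℓ : ℕ) : ↥(ffi_O A L)) *
          (a₁ + ffi_j L N ^ m * b₁) := by rw [← hab, ← hf']
    have h2 : (a : ↥(modularFunctionFieldFullC L N)) -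
        algebraMap ↥(ffi_O A L) ↥(modularFunctionFieldFullC L N) ((ℓ : ℕ) : ↥(ffi_O A L)) * a₁ =
        ffi_j L N ^ m * ((a' : ↥(modularFunctionFieldFullC L N)) +
          algebraMap ↥(ffi_O A L) ↥(modularFunctionFieldFullC L N) ((ℓ : ℕ) : ↥(ffi_O A L)) *
            b₁) := by
      linear_combination h1
    rw [h2, mul_comm (ffi_j L N ^ m), mul_assoc, ← mul_pow, mul_inv_cancel₀ hj0, one_pow, mul_one]
  change ((a : ↥(modularFunctionFieldFullC L N)) -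
      algebraMap ↥(ffi_O A L) ↥(modularFunctionFieldFullC L N) ((ℓ : ℕ) : ↥(ffi_O A L)) * a₁) *
        (ffi_j L N)⁻¹ ^ m ∈ _
  rw [key]
  exact add_mem a'.2 (mul_mem (Subalgebra.algebraMap_mem _ _) hb₁)

end Glue

end Fermat.Agent.FF
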